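import Fermat.Agent.S48.Eis1.QExp

/-!
# S48 / Eis1 / Alg  (WP [EIS1-H] = (T4)): `eis1 l a / c1 l a ≡ 1` modulo `1 - ζ_l`
-/

set_option autoImplicit false

namespace Fermat.Agent.S48.Eis1

open Complex
open scoped Real

variable {l : ℕ}

/-! ### elementary facts on `zet` -/

theorem alg_zet_add (N : ℕ) (a b : ℤ) : zet N (a + b) = zet N a * zet N b := by
  unfold zet
  rw [← Complex.exp_add]
  congr 1
  push_cast
  ring

theorem alg_zet_zero (N : ℕ) : zet N 0 = 1 := by simp [zet]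

theorem alg_zet_pow (N : ℕ) (a : ℤ) (n : ℕ) : zet N a ^ n = zet N (a * n) := by
  unfold zet
  rw [← Complex.exp_nat_mul]
  congr 1
  push_cast
  ring

theorem alg_zet_mul_left {N : ℕ} (hN : N ≠ 0) (b : ℤ) : zet N (N * b) = 1 := by
  unfold zet
  have hN' : (N : ℂ) ≠ 0 := by exact_mod_cast hN
  have e : 2 * π * I * ((N * b : ℤ) : ℂ) / N = b * (2 * π * I) := by
    push_cast
    field_simp
  rw [e, Complex.exp_int_mul_two_pi_mul_I]

theorem alg_zet_pow_self {N : ℕ} (hN : N ≠ 0) (a : ℤ) : zet N a ^ N = 1 := by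
  rw [alg_zet_pow, mul_comm, alg_zet_mul_left hN]

theorem alg_zet_mul_neg (N : ℕ) (a : ℤ) : zet N a * zet N (-a) = 1 := by
  rw [← alg_zet_add, add_neg_cancel, alg_zet_zero]

/-- `ζ^{ad} = (ζ^a)^{d mod l}`. -/
theorem alg_zet_mul_eq_pow {N : ℕ} (hN : N ≠ 0) (a d : ℤ) :
    zet N (a * d) = zet N a ^ (d % N).toNat := by
  have hN' : (0 : ℤ) < N := by exact_mod_cast Nat.pos_of_ne_zero hN
  have h1 : (((d % N).toNat : ℕ) : ℤ) = d % N := Int.toNat_of_nonneg (Int.emod_nonneg _ hN'.ne')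
  rw [alg_zet_pow, h1]
  have e : a * d = a * (d % N) + N * (a * (d / N)) := by
    have := Int.emod_add_mul_ediv d N
    linear_combination (-a) * this
  rw [e, alg_zet_add, alg_zet_mul_left hN, mul_one]

theorem alg_isIntegral_zet (hl : l ≠ 0) (a : ℤ) : IsIntegral ℤ (zet l a) :=
  IsIntegral.of_pow (Nat.pos_of_ne_zero hl) (by rw [alg_zet_pow_self hl]; exact isIntegral_one)

/-- abstract cyclotomic units. -/
theorem alg_geom_mul_geom {R : Type*} [CommRing R] [IsDomain R] {Z : R} {l d e : ℕ}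
    (hZ : Z ^ l = 1) (hZ1 : Z ≠ 1) (hde : d * e % l = 1) :
    (∑ j ∈ Finset.range d, Z ^ j) * (∑ j ∈ Finset.range e, (Z ^ d) ^ j) = 1 := by
  have h1 : Z - 1 ≠ 0 := sub_ne_zero.mpr hZ1
  apply mul_right_cancel₀ h1
  have h2 : (∑ j ∈ Finset.range d, Z ^ j) * (Z - 1) = Z ^ d - 1 := geom_sum_mul Z d
  have h3 : (∑ j ∈ Finset.range e, (Z ^ d) ^ j) * (Z ^ d - 1) = (Z ^ d) ^ e - 1 :=
    geom_sum_mul (Z ^ d) e
  have h4 : (Z ^ d) ^ e = Z := by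
    rw [← pow_mul, pow_eq_pow_mod _ hZ, hde, pow_one]
  rw [h4] at h3
  calc (∑ j ∈ Finset.range d, Z ^ j) * (∑ j ∈ Finset.range e, (Z ^ d) ^ j) * (Z - 1)
      = (∑ j ∈ Finset.range e, (Z ^ d) ^ j) * ((∑ j ∈ Finset.range d, Z ^ j) * (Z - 1)) := by ring
    _ = 1 * (Z - 1) := by rw [h2, h3, one_mul]

/-- in characteristic `l`, an `l`-th root of unity is `1`. -/
theorem alg_eq_one_of_pow {k : Type} [Field k] (hl : l.Prime) (hk : (l : k) = 0) {x : k}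
    (hx : x ^ l = 1) : x = 1 := by
  have : Fact l.Prime := ⟨hl⟩
  have : CharP k l := (CharP.charP_iff_prime_eq_zero hl).mpr hk
  apply frobenius_inj k l
  rw [frobenius_def, frobenius_def, hx, one_pow]

/-- `ζ^a` as an element of `OO`. -/
noncomputable def zO (hl : l ≠ 0) (a : ℤ) : OO := ⟨zet l a, alg_isIntegral_zet hl a⟩

theorem coe_zO (hl : l ≠ 0) (a : ℤ) : ((zO hl a : OO) : ℂ) = zet l a := rfl

theorem zO_pow_self (hl : l ≠ 0) (a : ℤ) : zO hl a ^ l = 1 :=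
  Subtype.ext (by push_cast; rw [coe_zO]; exact alg_zet_pow_self hl a)

theorem zO_mul_neg (hl : l ≠ 0) (a : ℤ) : zO hl a * zO hl (-a) = 1 :=
  Subtype.ext (by push_cast; rw [coe_zO, coe_zO]; exact alg_zet_mul_neg l a)

theorem map_zO {k : Type} [Field k] (φ : OO →+* k) (hl : l.Prime) (hk : (l : k) = 0) (a : ℤ) :
    φ (zO hl.ne_zero a) = 1 :=
  alg_eq_one_of_pow hl hk (by rw [← map_pow, zO_pow_self, map_one])

theorem zO_ne_one (hl : l ≠ 0) {a : ℤ} (ha : ¬ (l : ℤ) ∣ a) : zO hl a ≠ 1 := by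
  have : NeZero l := ⟨hl⟩
  intro h
  exact zet_ne_one ha (congrArg (fun x : OO => (x : ℂ)) h)

/-- the cyclotomic unit `∑_{j<d} ζ^{aj}`, `l ∤ d`. -/
theorem exists_geom_unit (hl : l.Prime) {a : ℤ} (ha : ¬ (l : ℤ) ∣ a) {d : ℕ} (hd : ¬ l ∣ d) :
    ∃ u : OOˣ, (u : OO) = ∑ j ∈ Finset.range d, zO hl.ne_zero a ^ j := by
  obtain ⟨e, -, he⟩ := Nat.exists_mul_mod_eq_one_of_coprime
    ((Nat.Prime.coprime_iff_not_dvd hl).mpr hd).symm hl.one_lt
  have h := alg_geom_mul_geom (zO_pow_self hl.ne_zero a) (zO_ne_one hl.ne_zero ha) he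
  exact ⟨⟨_, _, h, by rw [mul_comm]; exact h⟩, rfl⟩

/-- `ζ^a` as an element of `OO = integralClosure ℤ ℂ`. -/
theorem exists_zet_OO (hl : l ≠ 0) (a : ℤ) : ∃ z : OOˣ, ((z : OO) : ℂ) = zet l a ∧
    ∀ (k : Type) [Field k] (φ : OO →+* k), (l : k) = 0 → l.Prime → φ z = 1 :=
  ⟨⟨zO hl a, zO hl (-a), zO_mul_neg hl a, by rw [mul_comm]; exact zO_mul_neg hl a⟩, rfl,
    fun _ _ φ hk hp => map_zO φ hp hk a⟩

/-- `1 + ζ^a` is a unit (`l` odd, `l ∤ a`): `(1 - ζ^{2a}) = (1 - ζ^a)(1 + ζ^a)` and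
`(1 - ζ^a)/(1 - ζ^{2a}) = ∑_{j < (l+1)/2} ζ^{2aj}`.
(The hypothesis `l ∤ a` is necessary: `2` is not a unit of `OO`.) -/
theorem exists_one_add_zO (hl : l.Prime) (hl2 : l ≠ 2) {a : ℤ} (ha : ¬ (l : ℤ) ∣ a) :
    ∃ u : OOˣ, (u : OO) = 1 + zO hl.ne_zero a := by
  obtain ⟨u, hu⟩ := exists_geom_unit hl ha (d := 2)
    (fun h => hl2 ((Nat.prime_dvd_prime_iff_eq hl Nat.prime_two).mp h))
  refine ⟨u, ?_⟩
  rw [hu, Finset.sum_range_succ, Finset.sum_range_one, pow_zero, pow_one]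

theorem exists_one_add_zet_OO (hl : l.Prime) (hl2 : l ≠ 2) {a : ℤ} (ha : ¬ (l : ℤ) ∣ a) :
    ∃ u : OOˣ, ((u : OO) : ℂ) = 1 + zet l a := by
  obtain ⟨u, hu⟩ := exists_one_add_zO hl hl2 ha
  refine ⟨u, ?_⟩
  rw [hu]
  push_cast
  rw [coe_zO]

theorem alg_one_add_zet_ne_zero (hl : l.Prime) (hl2 : l ≠ 2) {a : ℤ} (ha : ¬ (l : ℤ) ∣ a) :
    zet l a + 1 ≠ 0 := by
  obtain ⟨u, hu⟩ := exists_one_add_zet_OO hl hl2 ha
  rw [add_comm, ← hu]
  intro h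
  exact u.ne_zero (Subtype.ext h)

theorem alg_zet_sub_one_ne_zero (hl : l.Prime) {a : ℤ} (ha : ¬ (l : ℤ) ∣ a) :
    zet l a - 1 ≠ 0 := by
  have : NeZero l := ⟨hl.ne_zero⟩
  exact sub_ne_zero.mpr (zet_ne_one ha)

theorem c1_ne_zero (hl : l.Prime) (hl2 : l ≠ 2) {a : ℤ} (ha : ¬ (l : ℤ) ∣ a) : c1 l a ≠ 0 := by
  unfold c1
  exact div_ne_zero (alg_one_add_zet_ne_zero hl hl2 ha)
    (mul_ne_zero two_ne_zero (alg_zet_sub_one_ne_zero hl ha))

/-- (T4a) the coefficients of `h_a = eis1 l a / c1 l a` are algebraic integers, `≡ 1, 0, 0, …`.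
For `n ≥ 1`: `coeff1 / c1 = -2 (ζ^a - 1) (1 + ζ^a)⁻¹ ∑_{m ∣ n} (ζ^{am} - ζ^{-am})`, and `φ (ζ^a - 1) = 0`. -/
theorem exists_coeff_OO (hl : l.Prime) (hl2 : l ≠ 2) {a : ℤ} (ha : ¬ (l : ℤ) ∣ a) (n : ℕ) :
    ∃ x : OO, (x : ℂ) = coeff1 l a n / c1 l a ∧
      ∀ (k : Type) [Field k] (φ : OO →+* k), (l : k) = 0 → φ x = if n = 0 then 1 else 0 := by
  by_cases hn : n = 0
  · subst hn
    refine ⟨1, ?_, fun k _ φ _ => by simp⟩
    rw [coeff1, if_pos rfl, div_self (c1_ne_zero hl hl2 ha)]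
    rfl
  · obtain ⟨u, hu⟩ := exists_one_add_zO hl hl2 ha
    have hu' : (((u⁻¹ : OOˣ) : OO) : ℂ) = (zet l a + 1)⁻¹ := by
      have h1 : (((u⁻¹ : OOˣ) : OO) : ℂ) * ((u : OO) : ℂ) = 1 :=
        congrArg (fun x : OO => (x : ℂ)) (Units.inv_mul u)
      have h2 : ((u : OO) : ℂ) = zet l a + 1 := by
        rw [hu]; push_cast; rw [coe_zO, add_comm]
      rw [h2] at h1
      exact eq_inv_of_mul_eq_one_left h1
    refine ⟨(zO hl.ne_zero a - 1) * (-2 * ((u⁻¹ : OOˣ) : OO) *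
      ∑ m ∈ n.divisors, (zO hl.ne_zero (a * m) - zO hl.ne_zero (-(a * m)))), ?_, ?_⟩
    · rw [coeff1, if_neg hn, c1]
      push_cast
      rw [hu']
      simp only [coe_zO]
      have h1 := alg_one_add_zet_ne_zero hl hl2 ha
      have h2 := alg_zet_sub_one_ne_zero hl ha
      have h3 : (((2 : OO)) : ℂ) = 2 := rfl
      rw [h3]
      field_simp
    · intro k _ φ hk
      rw [if_neg hn, map_mul, map_sub, map_zO φ hl hk, map_one, sub_self, zero_mul]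

/-- (T4b) `c_{ad}/c_a = [(ζ^{ad}+1)/(ζ^a+1)] [(ζ^a-1)/(ζ^{ad}-1)]` is a unit with `φ(·) d = 1`:
`(ζ^{ad}-1)/(ζ^a-1) = ∑_{j<d} ζ^{aj}` for `d > 0` is a cyclotomic unit (inverse: choose `e > 0` with
`d e ≡ 1 mod l`, `(ζ^a - 1)/(ζ^{ad}-1) = ∑_{j<e} ζ^{adj}`) and maps to `d`; reduce `d` modulo `l` to
`0 < d < l` first (`zet l` only depends on the class mod `l`). -/
theorem exists_ratio_OO (hl : l.Prime) (hl2 : l ≠ 2) {a d : ℤ} (ha : ¬ (l : ℤ) ∣ a)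
    (hd : ¬ (l : ℤ) ∣ d) :
    ∃ u : OOˣ, ((u : OO) : ℂ) = c1 l (a * d) / c1 l a ∧
      ∀ (k : Type) [Field k] (φ : OO →+* k), (l : k) = 0 → φ u * (d : k) = 1 := by
  have hl0 : (0 : ℤ) < l := by exact_mod_cast hl.pos
  have hlp : Prime (l : ℤ) := Nat.prime_iff_prime_int.mp hl
  have had : ¬ (l : ℤ) ∣ a * d := fun h => (hlp.dvd_or_dvd h).elim ha hd
  set d₀ : ℕ := (d % l).toNat with hd₀
  have hd₀' : (d₀ : ℤ) = d % l := Int.toNat_of_nonneg (Int.emod_nonneg _ hl0.ne')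
  have hd₀l : ¬ l ∣ d₀ := by
    intro h
    apply hd
    have h1 : (l : ℤ) ∣ (d₀ : ℤ) := by exact_mod_cast h
    rw [hd₀'] at h1
    have h2 := dvd_add h1 (Int.dvd_self_sub_emod (x := d) (m := l))
    rwa [add_sub_cancel] at h2
  obtain ⟨P, hP⟩ := exists_one_add_zO hl hl2 had
  obtain ⟨Q, hQ⟩ := exists_one_add_zO hl hl2 ha
  obtain ⟨U, hU⟩ := exists_geom_unit hl ha hd₀l
  have hcoe : ∀ v : OOˣ, (((v⁻¹ : OOˣ) : OO) : ℂ) = (((v : OO) : ℂ))⁻¹ := by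
    intro v
    have h1 : (((v⁻¹ : OOˣ) : OO) : ℂ) * ((v : OO) : ℂ) = 1 :=
      congrArg (fun x : OO => (x : ℂ)) (Units.inv_mul v)
    exact eq_inv_of_mul_eq_one_left h1
  refine ⟨P * Q⁻¹ * U⁻¹, ?_, ?_⟩
  · have hUc : ((U : OO) : ℂ) * (zet l a - 1) = zet l (a * d) - 1 := by
      rw [hU, alg_zet_mul_eq_pow hl.ne_zero, ← geom_sum_mul]
      push_cast
      simp only [coe_zO]
      rfl
    have h1 := alg_one_add_zet_ne_zero hl hl2 ha
    have h2 := alg_zet_sub_one_ne_zero hl ha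
    have h3 := alg_one_add_zet_ne_zero hl hl2 had
    have h4 := alg_zet_sub_one_ne_zero hl had
    have hU0 : ((U : OO) : ℂ) ≠ 0 := left_ne_zero_of_mul (hUc ▸ h4)
    rw [Units.val_mul, Units.val_mul]
    push_cast
    rw [hcoe, hcoe, hP, hQ]
    push_cast
    simp only [coe_zO]
    unfold c1
    rw [← hUc, add_comm 1 (zet l (a * d)), add_comm 1 (zet l a)]
    field_simp
  · intro k _ φ hk
    have hφU : φ U = (d : k) := by
      rw [hU, map_sum]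
      simp only [map_pow, map_zO φ hl hk, one_pow, Finset.sum_const, Finset.card_range,
        nsmul_eq_mul, mul_one]
      have e : d = (d₀ : ℤ) + l * (d / l) := by
        rw [hd₀']; exact (Int.emod_add_mul_ediv d l).symm
      conv_rhs => rw [e]
      push_cast
      rw [hk, zero_mul, add_zero]
    have hφP : φ P = φ Q := by
      rw [hP, hQ, map_add, map_add, map_zO φ hl hk, map_zO φ hl hk]
    rw [← hφU, ← map_mul, ← Units.val_mul, inv_mul_cancel_right, Units.val_mul, map_mul, hφP,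
      ← map_mul, ← Units.val_mul, mul_inv_cancel, Units.val_one, map_one]

end Fermat.Agent.S48.Eis1
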