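import Fermat.Agent.S48.Eis1.CotExp

/-!
# S48 / Eis1 / Bdd  (WP [EIS1-G]): `Zf N r s` is bounded at `i∞` for `0 ≤ r < N`
-/

set_option autoImplicit false
set_option linter.unusedSectionVars false

namespace Fermat.Agent.S48.Eis1

open UpperHalfPlane hiding I
open Complex
open scoped Real MatrixGroups

variable {N : ℕ} [NeZero N]

theorem im_dv_add (r s m : ℤ) (τ : ℍ) :
    (dv N r s τ + m * τ).im = ((r : ℝ) / N + m) * τ.im := by
  simp [dv, Complex.div_natCast_im]
  ring

theorem summable_natAbs_pow (C ρ : ℝ) (h0 : 0 ≤ ρ) (h1 : ρ < 1) :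
    Summable (fun m : ℤ => C * ρ ^ m.natAbs) := by
  apply Summable.of_nat_of_neg
  · simpa using (summable_geometric_of_lt_one h0 h1).mul_left C
  · simpa using (summable_geometric_of_lt_one h0 h1).mul_left C

/-- Let `y = Im τ ≥ 1`, `v = (rτ+s)/N`, so `Im (v + mτ) = (r/N + m) y`.
* `m ≥ 1`: `Im ≥ m`, `‖cotTerm‖ ≤ 2π e^{-2πm}/(1 - e^{-2π})` (`norm_cot_add_I_le`, `δ = 1`);
* `m ≤ -1`: `Im ≤ -(|m| - 1 + 1/N)`, `‖cotTerm‖ ≤ 2π e^{-2π(|m|-1+1/N)}/(1 - e^{-2π/N})`
  (`norm_cot_sub_I_le`, `δ = 1/N`);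
* `m = 0`, `r > 0`: `Im v ≥ 1/N`, `‖π cot πv‖ ≤ π + 2π/(1 - e^{-2π/N})`;
* `m = 0`, `r = 0`: the constant `π cot (π s/N)`.
Sum the two geometric series (`tsum_of_norm_bounded`, `norm_tsum_le_tsum_norm`,
`Summable.of_nat_of_neg_add_one`). -/
theorem exists_bound_Zf {r s : ℤ} (h0 : 0 ≤ r) (h1 : r < N) :
    ∃ C : ℝ, ∀ τ : ℍ, 1 ≤ τ.im → ‖Zf N r s τ‖ ≤ C := by
  have hN : (0 : ℝ) < N := Nat.cast_pos.2 (NeZero.pos N)
  have hN1 : (1 : ℝ) ≤ N := by exact_mod_cast NeZero.pos N
  set δ : ℝ := 1 / N with hδ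
  have hδ0 : 0 < δ := by positivity
  have hδ1 : δ ≤ 1 := by rw [hδ, div_le_one hN]; exact hN1
  set D : ℝ := 1 - Real.exp (-(2 * π * δ)) with hD
  have hD0 : 0 < D := by
    rw [hD, sub_pos, Real.exp_lt_one_iff]
    have := Real.pi_pos
    nlinarith
  set A : ℝ := 2 * π * Real.exp (2 * π) / D with hA
  have hA0 : 0 ≤ A := by positivity
  set C₀ : ℝ := π + A + ‖π * cot (π * ((s : ℂ) / N))‖ with hC₀
  have hAC : A ≤ C₀ := by
    have := Real.pi_pos
    have := norm_nonneg (π * cot (π * ((s : ℂ) / N)))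
    rw [hC₀]; linarith
  set ρ : ℝ := Real.exp (-(2 * π)) with hρ
  have hρ0 : 0 ≤ ρ := (Real.exp_pos _).le
  have hρ1 : ρ < 1 := by
    rw [hρ, Real.exp_lt_one_iff]
    have := Real.pi_pos
    linarith
  have hρpow : ∀ k : ℕ, ρ ^ k = Real.exp (-(2 * π * k)) := by
    intro k
    rw [hρ, ← Real.exp_nat_mul]
    congr 1; ring
  have hrN : (r : ℝ) / N ≤ 1 - δ := by
    rw [hδ, div_le_iff₀ hN, sub_mul, one_mul, div_mul_cancel₀ _ hN.ne']
    have : r + 1 ≤ (N : ℤ) := h1
    have : ((r + 1 : ℤ) : ℝ) ≤ ((N : ℤ) : ℝ) := by exact_mod_cast this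
    push_cast at this
    linarith
  have hr0 : (0 : ℝ) ≤ (r : ℝ) / N := by
    have : (0 : ℝ) ≤ r := by exact_mod_cast h0
    positivity
  have hb : ∀ τ : ℍ, 1 ≤ τ.im → ∀ m : ℤ, ‖cotTerm (dv N r s τ) τ m‖ ≤ C₀ * ρ ^ m.natAbs := by
    intro τ hτ m
    have him := im_dv_add (N := N) r s m τ
    rcases lt_trichotomy m 0 with hm | hm | hm
    · -- negative
      have hk : ((m.natAbs : ℕ) : ℝ) = -m := by
        have h7 : ((m.natAbs : ℤ)) = -m := Int.ofNat_natAbs_of_nonpos hm.le
        have h8 : (((m.natAbs : ℤ)) : ℝ) = ((-m : ℤ) : ℝ) := congrArg _ h7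
        rw [Int.cast_natCast, Int.cast_neg] at h8
        exact h8
      have hm1 : (m : ℝ) ≤ -1 := by
        have : m ≤ -1 := by omega
        exact_mod_cast this
      have hz : (dv N r s τ + m * τ).im ≤ 1 - δ + m := by
        rw [him]
        have h3 : (r : ℝ) / N + m ≤ 0 := by linarith
        nlinarith
      have h := norm_cot_sub_I_le hδ0 (z := dv N r s τ + m * τ) (by linarith)
      have hsign : ((m.sign : ℤ) : ℂ) = -1 := by rw [Int.sign_eq_neg_one_of_neg hm]; simp
      unfold cotTerm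
      rw [hsign, mul_neg_one, ← sub_eq_add_neg]
      refine h.trans ?_
      rw [hρpow, hk]
      calc 2 * π * Real.exp (2 * π * (dv N r s τ + m * τ).im) / D
          ≤ 2 * π * Real.exp (2 * π + -(2 * π * -m)) / D := by
            have := Real.pi_pos
            gcongr
            nlinarith
        _ = A * Real.exp (-(2 * π * -m)) := by rw [hA, Real.exp_add]; ring
        _ ≤ C₀ * Real.exp (-(2 * π * -m)) := by gcongr
    · -- zero
      subst hm
      have hone : (1 : ℝ) ≤ Real.exp (2 * π) := by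
        apply Real.one_le_exp
        have := Real.pi_pos
        linarith
      simp only [Int.natAbs_zero, pow_zero, mul_one]
      unfold cotTerm
      simp only [Int.cast_zero, zero_mul, add_zero, Int.sign_zero, mul_zero]
      rcases h0.eq_or_lt with hr | hr
      · subst hr
        have : dv N 0 s τ = (s : ℂ) / N := by simp [dv]
        rw [this, hC₀]
        have := Real.pi_pos
        linarith
      · have hz : δ ≤ (dv N r s τ).im := by
          have h4 := him
          simp only [Int.cast_zero, zero_mul, add_zero] at h4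
          rw [h4, hδ]
          have hr1 : (1 : ℝ) ≤ r := by exact_mod_cast hr
          have : (1 : ℝ) / N ≤ (r : ℝ) / N := by gcongr
          nlinarith
        have h := norm_cot_add_I_le hδ0 hz
        have h5 : 2 * π * Real.exp (-(2 * π * (dv N r s τ).im)) / D ≤ A := by
          rw [hA]
          have := Real.pi_pos
          have h9 : Real.exp (-(2 * π * (dv N r s τ).im)) ≤ Real.exp (2 * π) := by
            refine le_trans ?_ hone
            rw [Real.exp_le_one_iff]
            nlinarith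
          gcongr
        have h6 : ‖(π : ℂ) * I‖ = π := by
          simp [abs_of_pos Real.pi_pos]
        calc ‖(π : ℂ) * cot (π * dv N r s τ)‖
            = ‖((π : ℂ) * cot (π * dv N r s τ) + π * I) - π * I‖ := by rw [add_sub_cancel_right]
          _ ≤ ‖(π : ℂ) * cot (π * dv N r s τ) + π * I‖ + ‖(π : ℂ) * I‖ := norm_sub_le _ _
          _ ≤ A + π := by rw [h6]; linarith
          _ ≤ C₀ := by
            rw [hC₀]
            have := norm_nonneg (π * cot (π * ((s : ℂ) / N)))
            linarith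
    · -- positive
      have hk : ((m.natAbs : ℕ) : ℝ) = m := by
        have h7 : ((m.natAbs : ℤ)) = m := Int.natAbs_of_nonneg hm.le
        have h8 : (((m.natAbs : ℤ)) : ℝ) = ((m : ℤ) : ℝ) := congrArg _ h7
        rw [Int.cast_natCast] at h8
        exact h8
      have hm1 : (1 : ℝ) ≤ m := by exact_mod_cast hm
      have hz : (m : ℝ) ≤ (dv N r s τ + m * τ).im := by
        rw [him]
        nlinarith
      have h := norm_cot_add_I_le hδ0 (z := dv N r s τ + m * τ) (by linarith)
      have hsign : ((m.sign : ℤ) : ℂ) = 1 := by rw [Int.sign_eq_one_of_pos hm]; simp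
      have hone : (1 : ℝ) ≤ Real.exp (2 * π) := by
        apply Real.one_le_exp
        have := Real.pi_pos
        linarith
      unfold cotTerm
      rw [hsign, mul_one]
      refine h.trans ?_
      rw [hρpow, hk]
      calc 2 * π * Real.exp (-(2 * π * (dv N r s τ + m * τ).im)) / D
          ≤ 2 * π * (Real.exp (2 * π) * Real.exp (-(2 * π * m))) / D := by
            have := Real.pi_pos
            gcongr
            calc Real.exp (-(2 * π * (dv N r s τ + m * τ).im))
                ≤ Real.exp (-(2 * π * m)) := by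
                  gcongr
              _ = 1 * Real.exp (-(2 * π * m)) := (one_mul _).symm
              _ ≤ Real.exp (2 * π) * Real.exp (-(2 * π * m)) := by gcongr
        _ = A * Real.exp (-(2 * π * m)) := by rw [hA]; ring
        _ ≤ C₀ * Real.exp (-(2 * π * m)) := by gcongr
  have hsum := summable_natAbs_pow C₀ ρ hρ0 hρ1
  refine ⟨∑' m : ℤ, C₀ * ρ ^ m.natAbs + ‖2 * π * I * r / N‖, fun τ hτ => ?_⟩
  unfold Zf cotS
  exact (norm_add_le _ _).trans (add_le_add (tsum_of_norm_bounded hsum.hasSum (hb τ hτ)) le_rfl)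

theorem isBoundedAtImInfty_Zf_of_lt {r s : ℤ} (h0 : 0 ≤ r) (h1 : r < N) :
    IsBoundedAtImInfty (Zf N r s) := by
  obtain ⟨C, hC⟩ := exists_bound_Zf (N := N) (s := s) h0 h1
  rw [UpperHalfPlane.isBoundedAtImInfty_iff]
  exact ⟨C, 1, hC⟩

end Fermat.Agent.S48.Eis1
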