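import Fermat.Agent.S48.Eis1.CotExp

/-!
# S48 / Eis1 / QExp  (WP [EIS1-F]): the `q`-expansion  `cotS (a/N) τ = 2πi eis1 N a τ`, holomorphy
-/

set_option autoImplicit false

namespace Fermat.Agent.S48.Eis1

open UpperHalfPlane hiding I
open Complex
open scoped Real MatrixGroups Manifold

/-- the constant term. -/
noncomputable def c1 (N : ℕ) (a : ℤ) : ℂ := (zet N a + 1) / (2 * (zet N a - 1))

/-- the `q`-expansion coefficients of `eis1 N a`. -/
noncomputable def coeff1 (N : ℕ) (a : ℤ) (n : ℕ) : ℂ :=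
  if n = 0 then c1 N a else -∑ m ∈ n.divisors, (zet N (a * m) - zet N (-(a * m)))

theorem zet_mul (N : ℕ) (a : ℤ) (m : ℕ) : zet N (a * m) = zet N a ^ m := by
  unfold zet
  rw [← Complex.exp_nat_mul]
  congr 1
  push_cast
  ring

theorem zet_neg (N : ℕ) (a : ℤ) : zet N (-a) = (zet N a)⁻¹ := by
  unfold zet
  rw [← Complex.exp_neg]
  congr 1
  push_cast
  ring

theorem norm_zet (N : ℕ) (a : ℤ) : ‖zet N a‖ = 1 := by
  unfold zet
  have : (2 * π * I * a / N : ℂ) = ((2 * π * a / N : ℝ) : ℂ) * I := by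
    push_cast
    ring
  rw [this, Complex.norm_exp_ofReal_mul_I]

theorem zet_ne_one {N : ℕ} [NeZero N] {a : ℤ} (ha : ¬ (N : ℤ) ∣ a) : zet N a ≠ 1 := by
  unfold zet
  intro h
  rw [Complex.exp_eq_one_iff] at h
  obtain ⟨n, hn⟩ := h
  apply ha
  have hN : (N : ℂ) ≠ 0 := by exact_mod_cast NeZero.ne N
  have hpi : (2 * π * I : ℂ) ≠ 0 := Complex.two_pi_I_ne_zero
  have h1 : (a : ℂ) = (N : ℂ) * n := by
    field_simp at hn
    exact hn
  exact ⟨n, by exact_mod_cast h1⟩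

theorem norm_coeff1_le (N : ℕ) (a : ℤ) {n : ℕ} (hn : n ≠ 0) : ‖coeff1 N a n‖ ≤ 2 * n := by
  rw [coeff1, if_neg hn, norm_neg]
  refine (norm_sum_le _ _).trans ?_
  have h1 : ∀ m ∈ n.divisors, ‖zet N (a * m) - zet N (-(a * m))‖ ≤ 2 := by
    intro m _
    refine (norm_sub_le _ _).trans ?_
    rw [norm_zet, norm_zet]
    norm_num
  refine (Finset.sum_le_card_nsmul _ _ _ h1).trans ?_
  rw [nsmul_eq_mul, mul_comm]
  gcongr
  exact Nat.card_divisors_le_self n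

/-- `π cot (π a/N) = 2πi (X+1)/(2(X-1))`, `X = e^{2πi a/N}`. -/
theorem pi_cot_eq {N : ℕ} [NeZero N] {a : ℤ} (ha : ¬ (N : ℤ) ∣ a) :
    π * cot (π * ((a : ℂ) / N)) = 2 * π * I * c1 N a := by
  have h1 : zet N a - 1 ≠ 0 := sub_ne_zero.mpr (zet_ne_one ha)
  have h2 : 1 - zet N a ≠ 0 := sub_ne_zero.mpr (zet_ne_one ha).symm
  have h3 : cexp (2 * I * (π * ((a : ℂ) / N))) = zet N a := by
    unfold zet
    congr 1
    ring
  rw [Complex.cot_eq_exp_ratio, h3, c1]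
  have hI : I ≠ 0 := Complex.I_ne_zero
  field_simp
  have hI2 : I ^ 2 = -1 := Complex.I_sq
  linear_combination (-(zet N a + 1) * (1 - zet N a)) * hI2

theorem summable_coeff1 (N : ℕ) (a : ℤ) {r : ℂ} (hr : ‖r‖ < 1) :
    Summable fun n : ℕ => coeff1 N a n * r ^ n := by
  rw [← summable_nat_add_iff 1]
  have h1 := (summable_norm_pow_mul_geometric_of_norm_lt_one 1 hr).mul_left 2
  rw [← summable_nat_add_iff 1] at h1
  refine Summable.of_norm_bounded h1 fun n => ?_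
  rw [norm_mul, norm_mul, pow_one, ← mul_assoc, Complex.norm_natCast]
  gcongr
  exact norm_coeff1_le N a (Nat.succ_ne_zero n)

/-- the power series form of the definition. -/
theorem hasSum_eis1 (N : ℕ) (a : ℤ) (τ : ℍ) :
    HasSum (fun n : ℕ => coeff1 N a n * cexp (2 * π * I * τ) ^ n) (eis1 N a τ) := by
  have hs := summable_coeff1 N a (norm_exp_two_pi_I_lt_one τ)
  have h := hs.hasSum
  rw [← tsum_zero_pnat_eq_tsum_nat hs] at h
  convert h using 1
  rw [eis1, coeff1, if_pos rfl, pow_zero, mul_one, c1, sub_eq_add_neg, ← tsum_neg]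
  congr 1
  refine tsum_congr fun n => ?_
  rw [coeff1, if_neg n.ne_zero, ← Complex.exp_nat_mul, neg_mul]
  congr 3
  ring

theorem summable_pow_prod {Y r : ℂ} (hY : ‖Y‖ = 1) (hr : ‖r‖ < 1) :
    Summable fun c : ℕ+ × ℕ+ ↦ Y ^ (c.2 : ℕ) * r ^ (c.1 * c.2 : ℕ) := by
  refine Summable.of_norm_bounded (summable_prod_mul_pow (𝕜 := ℂ) 0 hr).norm fun c => ?_
  rw [norm_mul, norm_mul, norm_pow, hY, one_pow, pow_zero, norm_one]

theorem tsum_pow_prod {Y r : ℂ} (hY : ‖Y‖ = 1) (hr : ‖r‖ < 1) :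
    ∑' m : ℕ+, ∑' k : ℕ+, Y ^ (k : ℕ) * r ^ (m * k : ℕ) =
      ∑' n : ℕ+, (∑ k ∈ (n : ℕ).divisors, Y ^ k) * r ^ (n : ℕ) := by
  rw [← (summable_pow_prod hY hr).tsum_prod (f := fun c : ℕ+ × ℕ+ ↦
    Y ^ (c.2 : ℕ) * r ^ (c.1 * c.2 : ℕ))]
  rw [← sigmaAntidiagonalEquivProd.tsum_eq]
  have hs := sigmaAntidiagonalEquivProd.summable_iff.mpr (summable_pow_prod hY hr)
  simp only [Function.comp_def] at hs
  rw [Summable.tsum_sigma hs]
  refine tsum_congr fun n ↦ ?_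
  rw [tsum_fintype, Finset.sum_mul]
  simp only [sigmaAntidiagonalEquivProd, divisorsAntidiagonalFactors, PNat.mk_coe, Equiv.coe_fn_mk,
    Finset.univ_eq_attach]
  rw [(n : ℕ).divisorsAntidiagonal.sum_attach fun x : ℕ × ℕ ↦ Y ^ x.2 * r ^ (x.1 * x.2)]
  rw [Nat.sum_divisorsAntidiagonal' fun x y ↦ Y ^ y * r ^ (x * y)]
  refine Finset.sum_congr rfl fun i hi ↦ ?_
  rw [Nat.div_mul_cancel (Nat.dvd_of_mem_divisors hi)]

theorem summable_divisors_pow {Y r : ℂ} (hY : ‖Y‖ = 1) (hr : ‖r‖ < 1) :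
    Summable fun n : ℕ+ => (∑ k ∈ (n : ℕ).divisors, Y ^ k) * r ^ (n : ℕ) := by
  have h1 := (summable_norm_pow_mul_geometric_of_norm_lt_one 1 hr)
  have h2 : Summable fun n : ℕ+ => ‖((n : ℕ) : ℂ) ^ 1 * r ^ (n : ℕ)‖ :=
    summable_pnat_iff_summable_nat.mpr h1
  refine Summable.of_norm_bounded h2 fun n => ?_
  rw [norm_mul, norm_mul, pow_one, Complex.norm_natCast]
  gcongr
  refine (norm_sum_le _ _).trans ?_
  have h3 : ∀ k ∈ (n : ℕ).divisors, ‖Y ^ k‖ ≤ 1 := by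
    intro k _
    rw [norm_pow, hY, one_pow]
  refine (Finset.sum_le_card_nsmul _ _ _ h3).trans ?_
  rw [nsmul_eq_mul, mul_one]
  exact_mod_cast Nat.card_divisors_le_self n

/-- **`q`-expansion**.  `m = 0`: `pi_cot_eq`.  `m ≥ 1`: `cotTerm = -2πi ∑_k X^k q^{mk}` (`cot_add_I`);
`m ≤ -1`: `cotTerm = 2πi ∑_k X^{-k} q^{|m|k}` (`cot_sub_I`).  Split `ℤ` (`tsum_of_nat_of_neg_add_one`
or `HasSum.of_nat_of_neg_add_one`), then the double sum over `(m, k) ∈ ℕ+ × ℕ+` is a sum over `n = mk`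
and the divisors `k ∣ n`: copy `S48/Forms/Eis3.lean: tsum_chi_prod`
(`sigmaAntidiagonalEquivProd`, `summable_prod_mul_pow`). -/
theorem Zf_zero_eq {N : ℕ} [NeZero N] {a : ℤ} (ha : ¬ (N : ℤ) ∣ a) (τ : ℍ) :
    Zf N 0 a τ = 2 * π * I * eis1 N a τ := by
  have hq := norm_exp_two_pi_I_lt_one τ
  set q : ℂ := cexp (2 * π * I * τ) with hqdef
  have hX : ‖zet N a‖ = 1 := norm_zet N a
  have hX' : ‖(zet N a)⁻¹‖ = 1 := by rw [norm_inv, hX, inv_one]
  have hv : dv N 0 a τ = (a : ℂ) / N := by simp [dv]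
  have h0 : cotTerm ((a : ℂ) / N) τ 0 = 2 * π * I * c1 N a := by
    simp [cotTerm, pi_cot_eq ha]
  have him : ∀ m : ℤ, ((a : ℂ) / N + m * τ).im = m * τ.im := by
    intro m
    have : ((a : ℂ) / N) = (((a : ℝ) / N : ℝ) : ℂ) := by push_cast; ring
    rw [this]
    simp
  have hp : ∀ m : ℕ+, cotTerm ((a : ℂ) / N) τ ((m : ℕ) : ℤ) =
      -(2 * π * I) * ∑' k : ℕ+, zet N a ^ (k : ℕ) * q ^ (m * k : ℕ) := by
    intro m
    have hm : (0 : ℝ) < ((m : ℕ) : ℤ) := by exact_mod_cast m.pos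
    have hz : 0 < ((a : ℂ) / N + (((m : ℕ) : ℤ) : ℂ) * τ).im := by
      rw [him]
      exact mul_pos hm τ.im_pos
    have hsg : (((m : ℕ) : ℤ).sign : ℂ) = 1 := by
      rw [Int.sign_eq_one_of_pos (by exact_mod_cast m.pos)]
      simp
    rw [cotTerm, hsg, mul_one, cot_add_I hz]
    congr 1
    refine tsum_congr fun k => ?_
    rw [hqdef, zet, ← Complex.exp_nat_mul, ← Complex.exp_nat_mul, ← Complex.exp_add]
    congr 1
    push_cast
    ring
  have hn : ∀ m : ℕ+, cotTerm ((a : ℂ) / N) τ (-((m : ℕ) : ℤ)) =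
      (2 * π * I) * ∑' k : ℕ+, (zet N a)⁻¹ ^ (k : ℕ) * q ^ (m * k : ℕ) := by
    intro m
    have hm : (0 : ℝ) < ((m : ℕ) : ℤ) := by exact_mod_cast m.pos
    have hz : ((a : ℂ) / N + ((-((m : ℕ) : ℤ) : ℤ) : ℂ) * τ).im < 0 := by
      rw [him]
      push_cast
      have := mul_pos hm τ.im_pos
      push_cast at this
      linarith
    have hsg : ((-((m : ℕ) : ℤ)).sign : ℂ) = -1 := by
      rw [Int.sign_eq_neg_one_of_neg (by simp)]
      simp
    rw [cotTerm, hsg, mul_neg, mul_one, ← sub_eq_add_neg, cot_sub_I hz]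
    congr 1
    refine tsum_congr fun k => ?_
    rw [hqdef, zet, ← Complex.exp_neg, ← Complex.exp_nat_mul, ← Complex.exp_nat_mul,
      ← Complex.exp_add]
    congr 1
    push_cast
    ring
  have he : eis1 N a τ = c1 N a - (∑' n : ℕ+, (∑ k ∈ (n : ℕ).divisors, zet N a ^ k) * q ^ (n : ℕ)
      - ∑' n : ℕ+, (∑ k ∈ (n : ℕ).divisors, (zet N a)⁻¹ ^ k) * q ^ (n : ℕ)) := by
    rw [eis1, c1, ← (summable_divisors_pow hX hq).tsum_sub (summable_divisors_pow hX' hq)]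
    congr 1
    refine tsum_congr fun n => ?_
    rw [← sub_mul, ← Finset.sum_sub_distrib, hqdef, ← Complex.exp_nat_mul]
    congr 1
    · refine Finset.sum_congr rfl fun k _ => ?_
      rw [zet_neg, zet_mul, inv_pow]
    · congr 1
      ring
  unfold Zf cotS
  rw [hv, tsum_int_eq_zero_add_tsum_pnat (summable_cotTerm _ τ), h0, tsum_congr hp, tsum_congr hn,
    tsum_mul_left, tsum_mul_left, tsum_pow_prod hX hq, tsum_pow_prod hX' hq, he]
  push_cast
  ring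

theorem differentiableOn_coeff1 (N : ℕ) (a : ℤ) :
    DifferentiableOn ℂ (fun w : ℂ => ∑' n : ℕ, coeff1 N a n * w ^ n) (Metric.ball 0 1) := by
  intro w hw
  rw [mem_ball_zero_iff] at hw
  obtain ⟨r, hwr, hr1⟩ := exists_between hw
  have hr0 : 0 ≤ r := (norm_nonneg w).trans hwr.le
  have hr : ‖(r : ℂ)‖ < 1 := by
    rw [Complex.norm_real, Real.norm_of_nonneg hr0]
    exact hr1
  have h1 : DifferentiableOn ℂ (fun w : ℂ => ∑' n : ℕ, coeff1 N a n * w ^ n) (Metric.ball 0 r) := by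
    refine differentiableOn_tsum_of_summable_norm (summable_coeff1 N a hr).norm
      (fun n => ?_) Metric.isOpen_ball (fun n z hz => ?_)
    · fun_prop
    · rw [mem_ball_zero_iff] at hz
      rw [norm_mul, norm_mul, norm_pow, norm_pow, Complex.norm_real, Real.norm_of_nonneg hr0]
      gcongr
  exact (h1.differentiableAt (Metric.isOpen_ball.mem_nhds
    (by rwa [mem_ball_zero_iff]))).differentiableWithinAt

/-- holomorphy, from the power series (`norm_coeff1_le`); e.g. `differentiableOn_tsum_of_summable_norm`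
on `{τ | δ < Im τ}`, or compose the analytic function `∑ c_n q^n` on the unit disc with
`τ ↦ e^{2πiτ}`; `UpperHalfPlane.mdifferentiable_iff`. -/
theorem mdiff_eis1 (N : ℕ) (a : ℤ) : MDiff (eis1 N a) := by
  rw [UpperHalfPlane.mdifferentiable_iff]
  have h1 : DifferentiableOn ℂ
      (fun z : ℂ => (fun w : ℂ => ∑' n : ℕ, coeff1 N a n * w ^ n) (cexp (2 * π * I * z)))
      {z : ℂ | 0 < z.im} := by
    refine DifferentiableOn.comp (t := Metric.ball 0 1) (differentiableOn_coeff1 N a) ?_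
      (fun z hz => ?_)
    · fun_prop
    · rw [mem_ball_zero_iff]
      exact norm_exp_two_pi_I_lt_one ⟨z, hz⟩
  refine h1.congr fun z hz => ?_
  have hz' : 0 < z.im := hz
  rw [Function.comp_apply, ofComplex_apply_of_im_pos hz']
  exact (hasSum_eis1 N a ⟨z, hz'⟩).tsum_eq.symm

end Fermat.Agent.S48.Eis1
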