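import Fermat.Agent.S48.Eis1.Transform
import Fermat.Agent.S48.Eis1.QExp
import Fermat.Agent.S48.Eis1.Bdd

/-!
# S48 / Eis1 / Main  (WP [EIS1-T]): the theorems (T1), (T2), (T3)
-/

set_option autoImplicit false

namespace Fermat.Agent.S48

open UpperHalfPlane hiding I
open Complex ModularForm CongruenceSubgroup ModularFormClass Eis1
open scoped Real MatrixGroups ModularForm Manifold

variable {N : ℕ} [NeZero N]

theorem two_pi_I_ne_zero' : (2 * π * I : ℂ) ≠ 0 := by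
  simp [Real.pi_ne_zero]

theorem eis1_eq_smul_Zf {a : ℤ} (ha : ¬ (N : ℤ) ∣ a) :
    eis1 N a = (2 * π * I : ℂ)⁻¹ • Zf N 0 a := by
  ext τ
  rw [Pi.smul_apply, smul_eq_mul, Zf_zero_eq ha, ← mul_assoc, inv_mul_cancel₀ two_pi_I_ne_zero',
    one_mul]

/-- `eis1 N a ∣[1] γ` for an arbitrary `γ ∈ SL₂(ℤ)`. -/
theorem eis1_slash_SL {a : ℤ} (ha : ¬ (N : ℤ) ∣ a) (γ : SL(2, ℤ)) :
    eis1 N a ∣[(1 : ℤ)] γ = (2 * π * I : ℂ)⁻¹ • Zf N (a * γ 1 0) (a * γ 1 1) := by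
  rw [eis1_eq_smul_Zf ha, ModularForm.SL_smul_slash, Zf_slash (fun h => ha h.2) γ]
  simp

omit [NeZero N] in
theorem not_dvd_mul_of_Gamma0 {a : ℤ} (ha : ¬ (N : ℤ) ∣ a) {γ : SL(2, ℤ)} (hγ : γ ∈ Gamma0 N) :
    ¬ (N : ℤ) ∣ a * γ 1 1 := by
  intro h
  apply ha
  rw [Gamma0_mem, ZMod.intCast_zmod_eq_zero_iff_dvd] at hγ
  have hdet : γ 0 0 * γ 1 1 - γ 0 1 * γ 1 0 = 1 := by
    have := γ.det_coe
    rw [Matrix.det_fin_two] at this
    exact this
  have e : a = (a * γ 1 1) * γ 0 0 - a * γ 0 1 * γ 1 0 := by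
    linear_combination (-a) * hdet
  rw [e]
  exact dvd_sub (Dvd.dvd.mul_right h _) (Dvd.dvd.mul_left hγ _)

/-- (T1). -/
theorem eis1_slash {a : ℤ} (ha : ¬ (N : ℤ) ∣ a) (γ : SL(2, ℤ)) (hγ : γ ∈ Gamma0 N) :
    eis1 N a ∣[(1 : ℤ)] γ = eis1 N (a * γ 1 1) := by
  rw [eis1_slash_SL ha, eis1_eq_smul_Zf (not_dvd_mul_of_Gamma0 ha hγ)]
  congr 1
  apply Zf_congr
  · rw [Gamma0_mem, ZMod.intCast_zmod_eq_zero_iff_dvd] at hγ
    rw [sub_zero]
    exact Dvd.dvd.mul_left hγ _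
  · simp

theorem isBoundedAtImInfty_Zf {r s : ℤ} : IsBoundedAtImInfty (Zf N r s) := by
  have hN : (0 : ℤ) < N := by exact_mod_cast Nat.pos_of_ne_zero (NeZero.ne N)
  rw [Zf_congr (N := N) (r := r) (r' := r % N) (s := s) (s' := s)
    (Int.dvd_self_sub_emod) (by simp)]
  exact isBoundedAtImInfty_Zf_of_lt (Int.emod_nonneg _ hN.ne') (Int.emod_lt_of_pos _ hN)

/-- (T2). -/
theorem exists_modularForm_eis1 {a : ℤ} (ha : ¬ (N : ℤ) ∣ a) :
    ∃ E : ModularForm (Gamma1 N) 1, (⇑E : ℍ → ℂ) = eis1 N a := by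
  refine ⟨{ toFun := eis1 N a
            slash_action_eq' := ?_
            holo' := mdiff_eis1 N a
            bdd_at_cusps' := ?_ }, rfl⟩
  · rintro _ ⟨γ, hγ, rfl⟩
    have h1 := eis1_slash ha γ (Gamma1_in_Gamma0 N hγ)
    replace hγ : γ ∈ Gamma1 N := hγ
    rw [Gamma1_mem] at hγ
    have h2 : eis1 N (a * γ 1 1) = eis1 N a := by
      rw [eis1_eq_smul_Zf (not_dvd_mul_of_Gamma0 ha (Gamma1_in_Gamma0 N (by
        rw [Gamma1_mem]; exact hγ))), eis1_eq_smul_Zf ha]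
      congr 1
      apply Zf_congr (by simp)
      have h3 : ((γ 1 1 - 1 : ℤ) : ZMod N) = 0 := by
        push_cast
        rw [hγ.2.1, sub_self]
      rw [ZMod.intCast_zmod_eq_zero_iff_dvd] at h3
      have e : a * γ 1 1 - a = a * (γ 1 1 - 1) := by ring
      rw [e]
      exact Dvd.dvd.mul_left h3 _
    rw [h2] at h1
    exact h1
  · intro c hc
    rw [Subgroup.IsArithmetic.isCusp_iff_isCusp_SL2Z] at hc
    rw [OnePoint.isBoundedAt_iff_forall_SL2Z hc]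
    intro γ _
    rw [eis1_slash_SL ha]
    exact isBoundedAtImInfty_Zf.const_smul_left _

/-- (T3). -/
theorem qCoeff_eis1 {a : ℤ} (ha : ¬ (N : ℤ) ∣ a) (n : ℕ) :
    qCoeff (eis1 N a) n = coeff1 N a n := by
  obtain ⟨E, hE⟩ := exists_modularForm_eis1 (N := N) ha
  rw [← hE]
  refine (ModularFormClass.qExpansion_coeff_unique (c := coeff1 N a) one_pos (by simp) (f := E)
    (fun τ => ?_) n).symm
  have := hasSum_eis1 N a τ
  have hq : Function.Periodic.qParam 1 (τ : ℂ) = Complex.exp (2 * Real.pi * Complex.I * τ) := by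
    simp [Function.Periodic.qParam]
  simp only [hq, smul_eq_mul, hE]
  exact this

end Fermat.Agent.S48
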