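import Fermat.Agent.S48.Eis1.Defs

/-!
# S48 / Eis1 / CotExp  (WP [EIS1-C]): exponential expansions of the cotangent, summability of `cotTerm`
-/

set_option autoImplicit false

namespace Fermat.Agent.S48.Eis1

open UpperHalfPlane hiding I
open Complex
open scoped Real

theorem norm_cexp_two_pi_I_mul (z : ℂ) : ‖cexp (2 * π * I * z)‖ = Real.exp (-(2 * π * z.im)) := by
  rw [Complex.norm_exp]
  congr 1
  simp [Complex.mul_re, Complex.mul_im]

theorem norm_cexp_two_pi_I_mul_lt_one {z : ℂ} (hz : 0 < z.im) : ‖cexp (2 * π * I * z)‖ < 1 := by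
  rw [norm_cexp_two_pi_I_mul, Real.exp_lt_one_iff]
  have := Real.pi_pos
  nlinarith

theorem cexp_pnat_eq_pow (z : ℂ) (k : ℕ) :
    cexp (2 * π * I * k * z) = cexp (2 * π * I * z) ^ k := by
  rw [← Complex.exp_nat_mul]
  congr 1
  ring

theorem summable_cexp_pnat {z : ℂ} (hz : 0 < z.im) :
    Summable fun k : ℕ+ => cexp (2 * π * I * k * z) := by
  have h : Summable fun k : ℕ => cexp (2 * π * I * k * z) := by
    simp_rw [cexp_pnat_eq_pow]
    exact summable_geometric_of_norm_lt_one (norm_cexp_two_pi_I_mul_lt_one hz)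
  exact (summable_pnat_iff_summable_nat (f := fun k : ℕ => cexp (2 * π * I * k * z))).mpr h

/-- Mathlib `pi_mul_cot_pi_q_exp (z : ℍ) : π cot πz = πi - 2πi ∑_{n ≥ 0} e^{2πi z n}`. -/
theorem cot_add_I {z : ℂ} (hz : 0 < z.im) :
    π * cot (π * z) + π * I = -(2 * π * I) * ∑' k : ℕ+, cexp (2 * π * I * k * z) := by
  have h : π * cot (π * z) = π * I - 2 * π * I * ∑' n : ℕ, cexp (2 * π * I * z) ^ n :=
    pi_mul_cot_pi_q_exp ⟨z, hz⟩
  have h2 : cexp (2 * π * I * z) ^ 0 + ∑' n : ℕ+, cexp (2 * π * I * z) ^ (n : ℕ) =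
      ∑' n : ℕ, cexp (2 * π * I * z) ^ n := tsum_zero_pnat_eq_tsum_nat
    (summable_geometric_of_norm_lt_one (norm_cexp_two_pi_I_mul_lt_one hz))
  have h3 : ∀ k : ℕ+, cexp (2 * π * I * k * z) = cexp (2 * π * I * z) ^ (k : ℕ) := fun k => by
    have := cexp_pnat_eq_pow z (k : ℕ)
    exact_mod_cast this
  simp_rw [h3]
  rw [pow_zero] at h2
  generalize (∑' n : ℕ+, cexp (2 * π * I * z) ^ (n : ℕ)) = S at h2 ⊢
  generalize (∑' n : ℕ, cexp (2 * π * I * z) ^ n) = S' at h2 h
  rw [h, ← h2]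
  ring

theorem cot_neg' (z : ℂ) : cot (-z) = -cot z := by
  rw [Complex.cot, Complex.cot, Complex.cos_neg, Complex.sin_neg, div_neg]

/-- apply `cot_add_I` to `-z` (`Complex.cot_neg`). -/
theorem cot_sub_I {z : ℂ} (hz : z.im < 0) :
    π * cot (π * z) - π * I = 2 * π * I * ∑' k : ℕ+, cexp (-(2 * π * I * k * z)) := by
  have h := cot_add_I (z := -z) (by simpa using hz)
  rw [mul_neg, cot_neg'] at h
  have h3 : ∀ k : ℕ+, cexp (2 * π * I * k * -z) = cexp (-(2 * π * I * k * z)) := fun k => by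
    rw [mul_neg]
  simp_rw [h3] at h
  linear_combination -h

/-- closed form. -/
theorem cot_add_I_eq {z : ℂ} (hz : 0 < z.im) :
    π * cot (π * z) + π * I =
      -(2 * π * I) * (cexp (2 * π * I * z) / (1 - cexp (2 * π * I * z))) := by
  have hq : 1 - cexp (2 * π * I * z) ≠ 0 := by
    intro h
    have h1 : cexp (2 * π * I * z) = 1 := (sub_eq_zero.mp h).symm
    have := norm_cexp_two_pi_I_mul_lt_one hz
    rw [h1] at this
    simp at this
  rw [cot_pi_eq_exp_ratio]
  generalize cexp (2 * π * I * z) = q at hq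
  have hI : (I : ℂ) ≠ 0 := I_ne_zero
  field_simp
  linear_combination (1 + q) * I_sq

/-- geometric series bound. -/
theorem norm_cot_add_I_le {z : ℂ} {δ : ℝ} (hδ : 0 < δ) (hz : δ ≤ z.im) :
    ‖π * cot (π * z) + π * I‖ ≤ 2 * π * Real.exp (-(2 * π * z.im)) / (1 - Real.exp (-(2 * π * δ))) := by
  have hz0 : 0 < z.im := lt_of_lt_of_le hδ hz
  have hpi := Real.pi_pos
  rw [cot_add_I_eq hz0, norm_mul, norm_div, norm_cexp_two_pi_I_mul]
  have h1 : ‖-(2 * (π : ℂ) * I)‖ = 2 * π := by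
    rw [norm_neg, norm_mul, norm_mul, Complex.norm_I, Complex.norm_real, Real.norm_eq_abs,
      abs_of_pos hpi]
    simp
  rw [h1, mul_div_assoc]
  have h2 : Real.exp (-(2 * π * δ)) < 1 := by
    rw [Real.exp_lt_one_iff]; nlinarith
  have h3 : 1 - Real.exp (-(2 * π * δ)) ≤ ‖1 - cexp (2 * π * I * z)‖ := by
    have h4 : 1 - ‖cexp (2 * π * I * z)‖ ≤ ‖1 - cexp (2 * π * I * z)‖ := by
      have := norm_sub_norm_le (1 : ℂ) (cexp (2 * π * I * z))
      simpa using this
    rw [norm_cexp_two_pi_I_mul] at h4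
    have h5 : Real.exp (-(2 * π * z.im)) ≤ Real.exp (-(2 * π * δ)) := by
      apply Real.exp_le_exp.mpr
      nlinarith
    linarith
  gcongr

theorem norm_cot_sub_I_le {z : ℂ} {δ : ℝ} (hδ : 0 < δ) (hz : z.im ≤ -δ) :
    ‖π * cot (π * z) - π * I‖ ≤ 2 * π * Real.exp (2 * π * z.im) / (1 - Real.exp (-(2 * π * δ))) := by
  have h := norm_cot_add_I_le (z := -z) hδ (by simpa using le_neg.mp hz)
  rw [mul_neg, cot_neg'] at h
  have h1 : (π : ℂ) * -cot (π * z) + π * I = -(π * cot (π * z) - π * I) := by ring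
  rw [h1, norm_neg] at h
  simpa using h

/-- `Im (v + mτ) = Im v + m Im τ`, so for `|m|` large `cotTerm` is `O(e^{-2π |m| Im τ})`
(`Summable.of_norm_bounded_eventually`, or split `ℤ` into `ℕ` and negatives:
`Summable.of_nat_of_neg_add_one`). No hypothesis on `v` is needed. -/
theorem summable_cotTerm (v : ℂ) (τ : ℍ) : Summable (cotTerm v τ) := by
  have hy : 0 < τ.im := τ.im_pos
  have hpi := Real.pi_pos
  set y : ℝ := τ.im with hydef
  set r : ℝ := Real.exp (-(2 * π * y)) with hr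
  have hr0 : 0 ≤ r := (Real.exp_pos _).le
  have hr1 : r < 1 := by
    rw [hr, Real.exp_lt_one_iff]; nlinarith
  have him : ∀ m : ℤ, (v + m * (τ : ℂ)).im = v.im + m * y := by
    intro m
    simp [hydef, Complex.add_im, Complex.mul_im]
  obtain ⟨n₀, hn₀⟩ := exists_nat_ge ((|v.im| + y) / y + 1)
  have hbig : ∀ n : ℕ, n₀ ≤ n → |v.im| + y ≤ n * y ∧ 1 ≤ n := by
    intro n hn
    have h1 : ((|v.im| + y) / y + 1 : ℝ) ≤ n := hn₀.trans (by exact_mod_cast hn)
    have h2 : (|v.im| + y) / y ≤ n := by linarith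
    rw [div_le_iff₀ hy] at h2
    refine ⟨h2, ?_⟩
    have h3 : (0 : ℝ) ≤ (|v.im| + y) / y := by positivity
    have h4 : (1 : ℝ) ≤ n := by linarith
    exact_mod_cast h4
  refine Summable.of_nat_of_neg_add_one ?_ ?_
  · refine Summable.of_norm_bounded_eventually_nat
      (g := fun n : ℕ => 2 * π * Real.exp (-(2 * π * v.im)) / (1 - r) * r ^ n)
      ((summable_geometric_of_lt_one hr0 hr1).mul_left _) ?_
    filter_upwards [Filter.eventually_ge_atTop n₀] with n hn
    obtain ⟨h1, h2⟩ := hbig n hn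
    have hs : ((n : ℤ).sign : ℂ) = 1 := by
      rw [Int.sign_eq_one_of_pos (by exact_mod_cast h2)]; simp
    have hz : y ≤ (v + ((n : ℤ) : ℂ) * (τ : ℂ)).im := by
      rw [him]
      have := neg_abs_le v.im
      push_cast
      linarith
    have h := norm_cot_add_I_le hy hz
    rw [cotTerm, hs, mul_one]
    refine h.trans (le_of_eq ?_)
    rw [him, hr, ← Real.exp_nat_mul]
    push_cast
    have h5 : Real.exp (-(2 * π * (v.im + n * y))) =
        Real.exp (-(2 * π * v.im)) * Real.exp (n * -(2 * π * y)) := by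
      rw [← Real.exp_add]; congr 1; ring
    rw [h5]
    ring
  · refine Summable.of_norm_bounded_eventually_nat
      (g := fun n : ℕ => 2 * π * Real.exp (2 * π * (v.im - y)) / (1 - r) * r ^ n)
      ((summable_geometric_of_lt_one hr0 hr1).mul_left _) ?_
    filter_upwards [Filter.eventually_ge_atTop n₀] with n hn
    obtain ⟨h1, h2⟩ := hbig n hn
    have hs : ((-((n : ℤ) + 1)).sign : ℂ) = -1 := by
      rw [Int.sign_eq_neg_one_of_neg (by omega)]; simp
    have hz : (v + ((-((n : ℤ) + 1) : ℤ) : ℂ) * (τ : ℂ)).im ≤ -y := by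
      rw [him]
      have := le_abs_self v.im
      push_cast
      nlinarith
    have h := norm_cot_sub_I_le hy hz
    rw [cotTerm, hs]
    have h3 : ∀ a b : ℂ, a + b * -1 = a - b := fun a b => by ring
    rw [h3]
    refine h.trans (le_of_eq ?_)
    rw [him, hr, ← Real.exp_nat_mul]
    push_cast
    have h5 : Real.exp (2 * π * (v.im + -((n : ℝ) + 1) * y)) =
        Real.exp (2 * π * (v.im - y)) * Real.exp (n * -(2 * π * y)) := by
      rw [← Real.exp_add]; congr 1; ring
    rw [h5]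
    ring

end Fermat.Agent.S48.Eis1
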