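import Mathlib

/-!
# S48 / Eis1 / CotSum  (WP [EIS1-B]): `∑_{n ∈ ℤ} (1/(z+n) - 1/(w+n)) = π cot πz - π cot πw`
(Mathlib only.)
-/

set_option autoImplicit false

namespace Fermat.Agent.S48.Eis1

open Complex
open scoped Real

theorem summable_int_inv_mul_inv (z w : ℂ) :
    Summable fun n : ℤ => (z + n)⁻¹ * (w + n)⁻¹ := by
  have h1 := (EisensteinSeries.linear_inv_isBigO_right 1 z).mul
    (EisensteinSeries.linear_inv_isBigO_right 1 w)
  have h2 : Summable fun n : ℤ => (n : ℝ)⁻¹ * (n : ℝ)⁻¹ := by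
    have := (Real.summable_one_div_int_pow (p := 2)).2 (by norm_num)
    refine this.congr fun n => ?_
    rw [one_div, pow_two, mul_inv]
  have h3 := summable_of_isBigO h2 h1
  simpa using h3

/-- summability: `1/(z+n) - 1/(w+n) = (w - z)/((z+n)(w+n)) = O(n⁻²)`. -/
theorem summable_int_inv_sub (z w : ℂ) : Summable fun n : ℤ => 1 / (z + n) - 1 / (w + n) := by
  have h1 := (summable_int_inv_mul_inv z w).mul_left (w - z)
  refine (summable_congr_cofinite ?_).1 h1
  have hz : {n : ℤ | z + n = 0}.Finite := by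
    apply Set.Subsingleton.finite
    intro a ha b hb
    have : (a : ℂ) = b := by
      have h2 : z + a = z + b := by rw [ha, hb]
      exact add_left_cancel h2
    exact_mod_cast this
  have hw : {n : ℤ | w + n = 0}.Finite := by
    apply Set.Subsingleton.finite
    intro a ha b hb
    have : (a : ℂ) = b := by
      have h2 : w + a = w + b := by rw [ha, hb]
      exact add_left_cancel h2
    exact_mod_cast this
  have := (hz.union hw).compl_mem_cofinite
  filter_upwards [this] with n hn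
  simp only [Set.mem_compl_iff, Set.mem_union, Set.mem_ofPred_eq, not_or] at hn
  obtain ⟨h3, h4⟩ := hn
  field_simp
  ring

theorem mem_integerComplement_of {z : ℂ} (hz : ∀ n : ℤ, z + n ≠ 0) : z ∈ Complex.integerComplement := by
  rintro ⟨m, rfl⟩
  apply hz (-m)
  simp

theorem hasSum_cotTerm' {z : ℂ} (hz : ∀ n : ℤ, z + n ≠ 0) :
    HasSum (fun n : ℕ => 1 / (z - (n + 1)) + 1 / (z + (n + 1))) (π * cot (π * z) - 1 / z) := by
  have h := mem_integerComplement_of hz
  rw [cot_series_rep' h]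
  exact (summable_cotTerm h).hasSum

/-- a symmetric summation lemma. -/
theorem hasSum_int_of_symm {f : ℤ → ℂ} (hf : Summable f) {s : ℂ}
    (hs : HasSum (fun n : ℕ => f (n + 1) + f (-(n + 1))) s) : HasSum f (s + f 0) := by
  have h1 := hf.hasSum.nat_add_neg
  have h2 : HasSum (fun n : ℕ => f ((n + 1 : ℕ) : ℤ) + f (-((n + 1 : ℕ) : ℤ))) s := by
    simpa using hs
  have h3 := (hasSum_nat_add_iff' (f := fun n : ℕ => f n + f (-n)) 1).2 h1
  simp only [Finset.range_one, Finset.sum_singleton, Nat.cast_zero, neg_zero] at h3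
  have h4 := h2.unique h3
  have h5 : ∑' n, f n = s + f 0 := by
    rw [h4]; ring
  rw [← h5]
  exact hf.hasSum

/-- From Mathlib `cot_series_rep : π cot πz - 1/z = ∑_{n ≥ 1} (1/(z-n) + 1/(z+n))` for `z ∉ ℤ`;
split the sum over `ℤ` into `n = 0`, `n ≥ 1`, `n ≤ -1` (`HasSum.of_nat_of_neg_add_one`,
`tsum_of_nat_of_neg_add_one`, `HasSum.int_rec`, ...). -/
theorem hasSum_int_inv_sub {z w : ℂ} (hz : ∀ n : ℤ, z + n ≠ 0) (hw : ∀ n : ℤ, w + n ≠ 0) :
    HasSum (fun n : ℤ => 1 / (z + n) - 1 / (w + n)) (π * cot (π * z) - π * cot (π * w)) := by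
  have h1 := (hasSum_cotTerm' hz).sub (hasSum_cotTerm' hw)
  have h3 : (fun n : ℕ => (fun n : ℤ => 1 / (z + n) - 1 / (w + n)) (n + 1) +
      (fun n : ℤ => 1 / (z + n) - 1 / (w + n)) (-(n + 1))) =
      fun b : ℕ => 1 / (z - (b + 1)) + 1 / (z + (b + 1)) -
        (1 / (w - (b + 1)) + 1 / (w + (b + 1))) := by
    funext n
    push_cast
    ring
  have h2 := hasSum_int_of_symm (summable_int_inv_sub z w)
    (s := π * cot (π * z) - 1 / z - (π * cot (π * w) - 1 / w)) (by rw [h3]; exact h1)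
  have h4 : π * cot (π * z) - 1 / z - (π * cot (π * w) - 1 / w) +
      (fun n : ℤ => 1 / (z + n) - 1 / (w + n)) 0 = π * cot (π * z) - π * cot (π * w) := by
    push_cast
    ring
  rw [h4] at h2
  exact h2

/-- the case `w = 0` (with `1 / 0 = 0`). -/
theorem hasSum_int_inv_sub_zero {z : ℂ} (hz : ∀ n : ℤ, z + n ≠ 0) :
    HasSum (fun n : ℤ => 1 / (z + n) - 1 / (n : ℂ)) (π * cot (π * z)) := by
  have h0 : Summable fun n : ℤ => 1 / (z + n) - 1 / (n : ℂ) := by
    simpa using summable_int_inv_sub z 0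
  have h1 := hasSum_cotTerm' hz
  have h3 : (fun n : ℕ => (fun n : ℤ => 1 / (z + n) - 1 / (n : ℂ)) (n + 1) +
      (fun n : ℤ => 1 / (z + n) - 1 / (n : ℂ)) (-(n + 1))) =
      fun b : ℕ => 1 / (z - (b + 1)) + 1 / (z + (b + 1)) := by
    funext n
    push_cast
    rw [one_div_neg_eq_neg_one_div]
    ring
  have h2 := hasSum_int_of_symm h0 (s := π * cot (π * z) - 1 / z) (by rw [h3]; exact h1)
  have h4 : π * cot (π * z) - 1 / z + (fun n : ℤ => 1 / (z + n) - 1 / (n : ℂ)) 0 =
      π * cot (π * z) := by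
    simp
  rw [h4] at h2
  exact h2

end Fermat.Agent.S48.Eis1
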