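import Fermat.Agent.S48.Forms.Defs
import Fermat.Agent.GAL.EisChar

/-!
# S48 / Eis1 : weight one Eisenstein series on `Γ₁(N)` (definitions).  Owner: helper63.

Route: Weierstrass zeta function `wz v τ = ∑_ω [1/(v+ω) - 1/ω + v/ω²]` (absolutely convergent,
homogeneous of degree `-1`), Mathlib's `G2_slash_action`, and the identity
`wz v τ - v G2 τ = cotS v τ := ∑_m (π cot π(v + mτ) + πi sgn m)`.
-/

set_option autoImplicit false

namespace Fermat.Agent.S48

open UpperHalfPlane hiding I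
open Complex
open scoped Real MatrixGroups

/-- `e^{2πi a/N}`. -/
noncomputable def zet (N : ℕ) (a : ℤ) : ℂ := cexp (2 * π * I * a / N)

/-- the weight one Eisenstein series attached to the `N`-division point `a/N`. -/
noncomputable def eis1 (N : ℕ) (a : ℤ) (τ : ℍ) : ℂ :=
  (zet N a + 1) / (2 * (zet N a - 1)) -
    ∑' n : ℕ+, (∑ m ∈ (n : ℕ).divisors, (zet N (a * m) - zet N (-(a * m)))) *
      cexp (2 * π * I * n * τ)

namespace Eis1

/-- the lattice point `w 0 * τ + w 1`. -/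
noncomputable def lat (τ : ℍ) (w : Fin 2 → ℤ) : ℂ := w 0 * τ + w 1

/-- the summand of the Weierstrass zeta function; `wzTerm v 0 = 1 / v` by Lean's conventions. -/
noncomputable def wzTerm (v ω : ℂ) : ℂ := 1 / (v + ω) - 1 / ω + v / ω ^ 2

/-- the Weierstrass zeta function of the lattice `ℤ τ + ℤ`. -/
noncomputable def wz (v : ℂ) (τ : ℍ) : ℂ := ∑' w : Fin 2 → ℤ, wzTerm v (lat τ w)

/-- `π cot π(v + mτ) + πi sgn m` (exponentially small as `|m| → ∞`). -/
noncomputable def cotTerm (v : ℂ) (τ : ℍ) (m : ℤ) : ℂ :=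
  π * Complex.cot (π * (v + m * τ)) + π * I * (m.sign : ℂ)

/-- `∑_m (π cot π(v + mτ) + πi sgn m)`. -/
noncomputable def cotS (v : ℂ) (τ : ℍ) : ℂ := ∑' m : ℤ, cotTerm v τ m

/-- `v` is not a lattice point. -/
def Off (v : ℂ) (τ : ℍ) : Prop := ∀ w : Fin 2 → ℤ, v + lat τ w ≠ 0

/-- the division point `(r τ + s)/N`. -/
noncomputable def dv (N : ℕ) (r s : ℤ) (τ : ℍ) : ℂ := (r * τ + s) / N

/-- `Z_{(r/N, s/N)}(τ) = E₁((rτ+s)/N, τ) + 2πi r/N`. -/
noncomputable def Zf (N : ℕ) (r s : ℤ) (τ : ℍ) : ℂ := cotS (dv N r s τ) τ + 2 * π * I * r / N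

end Eis1

end Fermat.Agent.S48
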