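import Fermat.Agent.S48.Eis1.Rows
import Fermat.Agent.S48.Eis1.CotExp

/-!
# S48 / Eis1 / Ident  (WP [EIS1-D2]): `wz v τ - v G2 τ = cotS v τ`
-/

set_option autoImplicit false

namespace Fermat.Agent.S48.Eis1

open UpperHalfPlane hiding I
open Complex EisensteinSeries Filter
open scoped Real MatrixGroups Topology

/-- the sum of an odd function over a symmetric interval vanishes. -/
theorem sum_Icc_odd_eq_zero {g : ℤ → ℂ} (hg : ∀ m, g (-m) = -g m) (K : ℕ) :
    ∑ m ∈ Finset.Icc (-(K : ℤ)) K, g m = 0 := by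
  have h1 : ∑ m ∈ Finset.Icc (-(K : ℤ)) K, g m = ∑ m ∈ Finset.Icc (-(K : ℤ)) K, g (-m) := by
    refine Finset.sum_equiv (Equiv.neg ℤ) (fun m => ?_) (fun m _ => ?_)
    · simp only [Finset.mem_Icc, Equiv.neg_apply]
      constructor <;> rintro ⟨h1, h2⟩ <;> constructor <;> omega
    · simp
  have h2 : ∑ m ∈ Finset.Icc (-(K : ℤ)) K, g (-m) = -∑ m ∈ Finset.Icc (-(K : ℤ)) K, g m := by
    rw [← Finset.sum_neg_distrib]
    exact Finset.sum_congr rfl fun m _ => hg m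
  rw [h2] at h1
  exact self_eq_neg.1 h1

/-- symmetric partial sums: `cot (π m τ)` and `sgn m` are odd in `m`, so they cancel. -/
theorem sum_Icc_rowA (v : ℂ) (τ : ℍ) (K : ℕ) :
    ∑ m ∈ Finset.Icc (-(K : ℤ)) K, rowA v τ m = ∑ m ∈ Finset.Icc (-(K : ℤ)) K, cotTerm v τ m := by
  rw [← sub_eq_zero, ← Finset.sum_sub_distrib]
  refine sum_Icc_odd_eq_zero (g := fun m => rowA v τ m - cotTerm v τ m) (fun m => ?_) K
  unfold rowA cotTerm
  have h1 : (π : ℂ) * (((-m : ℤ) : ℂ) * (τ : ℂ)) = -(π * ((m : ℂ) * τ)) := by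
    push_cast; ring
  have h2 : (((-m).sign : ℤ) : ℂ) = -((m.sign : ℤ) : ℂ) := by
    rw [Int.sign_neg]; push_cast; ring
  have h3 : ∀ x : ℂ, Complex.cot (-x) = -Complex.cot x := by
    intro x
    rw [Complex.cot_eq_cos_div_sin, Complex.cot_eq_cos_div_sin, Complex.cos_neg, Complex.sin_neg,
      div_neg]
  rw [h1, h2, h3]
  ring

/-- an unconditionally convergent sum over `ℤ` is the limit of its symmetric partial sums. -/
theorem tendsto_sum_Icc_of_hasSum {f : ℤ → ℂ} {a : ℂ} (h : HasSum f a) :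
    Tendsto (fun K : ℕ => ∑ m ∈ Finset.Icc (-(K : ℤ)) K, f m) atTop (𝓝 a) := by
  rw [← SummationFilter.hasSum_symmetricIcc_iff]
  exact h.mono_left (SummationFilter.symmetricIcc ℤ).le_atTop

theorem tendsto_sum_Icc_e2Summand (τ : ℍ) :
    Tendsto (fun K : ℕ => ∑ m ∈ Finset.Icc (-(K : ℤ)) K, e2Summand m τ) atTop (𝓝 (G2 τ)) := by
  rw [← SummationFilter.hasSum_symmetricIcc_iff, G2_eq_tsum_cexp]
  exact hasSum_e2Summand_symmetricIcc τ

theorem wz_sub_eq_cotS {v : ℂ} {τ : ℍ} (hv : Off v τ) : wz v τ - v * G2 τ = cotS v τ := by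
  have h1 := tendsto_sum_Icc_of_hasSum (hasSum_rows v τ)
  have h2 := (tendsto_sum_Icc_e2Summand τ).const_mul v
  have h3 := tendsto_sum_Icc_of_hasSum (summable_cotTerm v τ).hasSum
  have h4 := h1.sub h2
  refine tendsto_nhds_unique h4 ?_
  refine h3.congr fun K => ?_
  rw [← sum_Icc_rowA, Finset.mul_sum, ← Finset.sum_sub_distrib]
  refine Finset.sum_congr rfl fun m _ => ?_
  rw [tsum_row hv m]
  ring

end Fermat.Agent.S48.Eis1
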