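import Fermat.Agent.S48.Eis1.WZ
import Fermat.Agent.S48.Eis1.CotSum

/-!
# S48 / Eis1 / Rows  (WP [EIS1-D1]): summing the Weierstrass zeta series row by row
-/

set_option autoImplicit false

namespace Fermat.Agent.S48.Eis1

open UpperHalfPlane hiding I
open Complex EisensteinSeries
open scoped Real MatrixGroups

/-- `π cot π(v + mτ) - π cot π(mτ)`; for `m = 0` this is `π cot πv` since `Complex.cot 0 = 0`
in Lean. -/
noncomputable def rowA (v : ℂ) (τ : ℍ) (m : ℤ) : ℂ :=
  π * cot (π * (v + m * τ)) - π * cot (π * (m * τ))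

theorem lat_cons (τ : ℍ) (m n : ℤ) : lat τ ![m, n] = m * τ + n := by
  simp [lat]

/-- (D1a) the `m`-th row.  `wzTerm v ω = (1/(v+ω) - 1/ω) + v/ω²`, both parts summable over `n`
(`summable_int_inv_sub`, `e2Summand_summable`); first part by `hasSum_int_inv_sub` (`m ≠ 0`: `mτ + n ≠ 0`
as `Im (mτ) ≠ 0`) resp. `hasSum_int_inv_sub_zero` (`m = 0`); second part is `v * e2Summand m τ`
(`eisSummand 2 ![m, n] τ = (mτ+n)^(-2)`). -/
theorem tsum_row {v : ℂ} {τ : ℍ} (hv : Off v τ) (m : ℤ) :
    ∑' n : ℤ, wzTerm v (lat τ ![m, n]) = rowA v τ m + v * e2Summand m τ := by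
  have h2 : HasSum (fun n : ℤ => v * eisSummand 2 ![m, n] τ) (v * e2Summand m τ) :=
    (e2Summand_summable m τ).hasSum.mul_left v
  have hz : ∀ n : ℤ, (v + m * τ) + n ≠ 0 := by
    intro n
    have := hv ![m, n]
    rwa [lat_cons, ← add_assoc] at this
  have h1 : HasSum (fun n : ℤ => 1 / ((v + m * τ) + n) - 1 / ((m * τ : ℂ) + n)) (rowA v τ m) := by
    by_cases hm : m = 0
    · subst hm
      have := hasSum_int_inv_sub_zero hz
      simpa [rowA, Complex.cot] using this
    · refine hasSum_int_inv_sub hz ?_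
      intro n h
      have him := congrArg Complex.im h
      simp at him
      rcases him with h | h
      · exact hm h
      · exact τ.im_pos.ne' h
  refine (HasSum.tsum_eq ?_)
  convert h1.add h2 using 2 with n
  rw [lat_cons, wzTerm, eisSummand]
  simp only [Matrix.cons_val_zero, Matrix.cons_val_one, add_assoc]
  rw [zpow_neg, div_eq_mul_inv v]
  norm_cast

/-- (D1b) Fubini: `summable_wzTerm`, `finTwoArrowEquiv`, `Summable.hasSum.prod_fiberwise` /
`Summable.tsum_prod`. -/
theorem hasSum_rows (v : ℂ) (τ : ℍ) :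
    HasSum (fun m : ℤ => ∑' n : ℤ, wzTerm v (lat τ ![m, n])) (wz v τ) := by
  have hs := summable_wzTerm v τ
  have hs' : Summable fun x : ℤ × ℤ => wzTerm v (lat τ ((finTwoArrowEquiv ℤ).symm x)) :=
    ((finTwoArrowEquiv ℤ).symm.summable_iff (f := fun w => wzTerm v (lat τ w))).2 hs
  have h := hs'.hasSum.prod_fiberwise (fun m => (hs'.prod_factor m).hasSum)
  have e : ∑' x : ℤ × ℤ, wzTerm v (lat τ ((finTwoArrowEquiv ℤ).symm x)) = wz v τ :=
    (finTwoArrowEquiv ℤ).symm.tsum_eq (fun w => wzTerm v (lat τ w))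
  rw [e] at h
  exact h

end Fermat.Agent.S48.Eis1
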