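import Fermat.Agent.S48.Eis1.Ident

/-!
# S48 / Eis1 / Transform  (WP [EIS1-E]): transformation laws of `cotS` and `Zf`
-/

set_option autoImplicit false

namespace Fermat.Agent.S48.Eis1

open UpperHalfPlane hiding I
open Complex EisensteinSeries ModularForm Matrix
open scoped Real MatrixGroups ModularForm

theorem denom_eq (γ : SL(2, ℤ)) (τ : ℍ) : denom γ τ = (γ 1 0 : ℤ) * (τ : ℂ) + (γ 1 1 : ℤ) := by
  rw [ModularGroup.denom_apply]

theorem coe_smul_eq (γ : SL(2, ℤ)) (τ : ℍ) :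
    ((γ • τ : ℍ) : ℂ) = ((γ 0 0 : ℤ) * (τ : ℂ) + (γ 0 1 : ℤ)) / denom γ τ := by
  rw [denom_eq, coe_specialLinearGroup_apply]
  simp

theorem off_div (γ : SL(2, ℤ)) {v : ℂ} {τ : ℍ} (hv : Off v τ) : Off (v / denom γ τ) (γ • τ) := by
  intro w
  rw [lat_smul, ← add_div]
  exact div_ne_zero (hv _) (denom_ne_zero γ τ)

theorem G2_smul (γ : SL(2, ℤ)) (τ : ℍ) :
    G2 (γ • τ) = denom γ τ ^ 2 * G2 τ - 2 * π * I * (γ 1 0 : ℤ) * denom γ τ := by
  have h := congrFun (G2_slash_action γ) τ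
  rw [SL_slash_apply, Pi.sub_apply, D2] at h
  have hd := denom_ne_zero γ τ
  rw [_root_.zpow_neg, zpow_ofNat, mul_inv_eq_iff_eq_mul₀ (pow_ne_zero 2 hd)] at h
  rw [h]
  field_simp

theorem cotS_smul (γ : SL(2, ℤ)) {v : ℂ} {τ : ℍ} (hv : Off v τ) :
    cotS (v / denom γ τ) (γ • τ) = denom γ τ * cotS v τ + 2 * π * I * (γ 1 0 : ℤ) * v := by
  rw [← wz_sub_eq_cotS hv, ← wz_sub_eq_cotS (off_div γ hv), wz_smul, G2_smul]
  have hd := denom_ne_zero γ τ
  field_simp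
  ring

theorem cotTerm_add_one (v : ℂ) (τ : ℍ) (m : ℤ) : cotTerm (v + 1) τ m = cotTerm v τ m := by
  unfold cotTerm
  have e : (π : ℂ) * (v + 1 + m * τ) = π * (v + m * τ) + π := by ring
  rw [e]
  congr 2
  unfold Complex.cot
  rw [Complex.cos_add_pi, Complex.sin_add_pi, neg_div_neg_eq]

theorem cotS_add_one (v : ℂ) (τ : ℍ) : cotS (v + 1) τ = cotS v τ := by
  unfold cotS
  exact tsum_congr fun m => cotTerm_add_one v τ m

theorem cotS_add_tau (v : ℂ) (τ : ℍ) : cotS (v + τ) τ = cotS v τ - 2 * π * I := by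
  have h1 : ∀ m : ℤ, cotTerm (v + τ) τ m =
      cotTerm v τ (m + 1) + π * I * (((m.sign : ℤ) : ℂ) - (((m + 1).sign : ℤ) : ℂ)) := by
    intro m
    unfold cotTerm
    push_cast
    ring_nf
  have h2 : HasSum (fun m : ℤ => cotTerm v τ (m + 1)) (cotS v τ) :=
    (Equiv.addRight (1 : ℤ)).hasSum_iff.2 (summable_cotTerm v τ).hasSum
  have h3 : HasSum (fun m : ℤ => (((m.sign : ℤ) : ℂ) - (((m + 1).sign : ℤ) : ℂ))) (-2) := by
    have : (-2 : ℂ) = ∑ m ∈ ({-1, 0} : Finset ℤ), (((m.sign : ℤ) : ℂ) - (((m + 1).sign : ℤ) : ℂ)) := by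
      rw [Finset.sum_pair (by norm_num)]
      norm_num
    rw [this]
    refine hasSum_sum_of_ne_finset_zero fun m hm => ?_
    simp only [Finset.mem_insert, Finset.mem_singleton, not_or] at hm
    rcases lt_trichotomy m (-1) with h | h | h
    · rw [Int.sign_eq_neg_one_of_neg (by omega), Int.sign_eq_neg_one_of_neg (by omega), sub_self]
    · exact absurd h hm.1
    · rw [Int.sign_eq_one_of_pos (by omega), Int.sign_eq_one_of_pos (by omega), sub_self]
  have h4 := h2.add (h3.mul_left (π * I))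
  unfold cotS at *
  rw [tsum_congr h1, h4.tsum_eq]
  ring

variable {N : ℕ} [NeZero N]

theorem off_dv {r s : ℤ} (h : ¬ ((N : ℤ) ∣ r ∧ (N : ℤ) ∣ s)) (τ : ℍ) : Off (dv N r s τ) τ := by
  intro w hw
  apply h
  have hN : (N : ℂ) ≠ 0 := by exact_mod_cast NeZero.ne N
  unfold dv lat at hw
  have h1 : ((r + N * w 0 : ℤ) : ℂ) * τ + ((s + N * w 1 : ℤ) : ℂ) = 0 := by
    field_simp at hw
    push_cast
    linear_combination hw
  have him := congrArg Complex.im h1
  simp only [add_im, mul_im, intCast_re, intCast_im, zero_mul, add_zero, zero_im, coe_im] at him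
  have hr : (r + N * w 0 : ℤ) = 0 := by
    have := (mul_eq_zero.1 him).resolve_right τ.im_ne_zero
    exact_mod_cast this
  rw [hr] at h1
  have hs : (s + N * w 1 : ℤ) = 0 := by
    rw [Int.cast_zero, zero_mul, zero_add] at h1
    exact_mod_cast h1
  exact ⟨⟨-w 0, by linarith⟩, ⟨-w 1, by linarith⟩⟩

omit [NeZero N] in
theorem not_dvd_vecMul {r s : ℤ} (h : ¬ ((N : ℤ) ∣ r ∧ (N : ℤ) ∣ s)) (γ : SL(2, ℤ)) :
    ¬ ((N : ℤ) ∣ r * γ 0 0 + s * γ 1 0 ∧ (N : ℤ) ∣ r * γ 0 1 + s * γ 1 1) := by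
  rintro ⟨h1, h2⟩
  apply h
  have hdet : γ 0 0 * γ 1 1 - γ 0 1 * γ 1 0 = 1 := by
    have := γ.det_coe
    rw [Matrix.det_fin_two] at this
    exact this
  constructor
  · have e : r = (r * γ 0 0 + s * γ 1 0) * γ 1 1 - (r * γ 0 1 + s * γ 1 1) * γ 1 0 := by
      linear_combination (-r) * hdet
    rw [e]
    exact dvd_sub (Dvd.dvd.mul_right h1 _) (Dvd.dvd.mul_right h2 _)
  · have e : s = (r * γ 0 1 + s * γ 1 1) * γ 0 0 - (r * γ 0 0 + s * γ 1 0) * γ 0 1 := by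
      linear_combination (-s) * hdet
    rw [e]
    exact dvd_sub (Dvd.dvd.mul_right h2 _) (Dvd.dvd.mul_right h1 _)

theorem dv_smul (r s : ℤ) (γ : SL(2, ℤ)) (τ : ℍ) :
    dv N r s (γ • τ) = dv N (r * γ 0 0 + s * γ 1 0) (r * γ 0 1 + s * γ 1 1) τ / denom γ τ := by
  have hd := denom_ne_zero γ τ
  have hN : (N : ℂ) ≠ 0 := by exact_mod_cast NeZero.ne N
  unfold dv
  rw [coe_smul_eq]
  have hde := denom_eq γ τ
  field_simp
  rw [hde]
  push_cast
  ring

theorem Zf_slash {r s : ℤ} (h : ¬ ((N : ℤ) ∣ r ∧ (N : ℤ) ∣ s)) (γ : SL(2, ℤ)) :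
    Zf N r s ∣[(1 : ℤ)] γ = Zf N (r * γ 0 0 + s * γ 1 0) (r * γ 0 1 + s * γ 1 1) := by
  ext τ
  have hd := denom_ne_zero γ τ
  have hN : (N : ℂ) ≠ 0 := by exact_mod_cast NeZero.ne N
  rw [SL_slash_apply, _root_.zpow_neg, zpow_one, mul_inv_eq_iff_eq_mul₀ hd]
  unfold Zf
  rw [dv_smul, cotS_smul γ (off_dv (not_dvd_vecMul h γ) τ)]
  have hdet : ((γ 0 0 : ℤ) : ℂ) * (γ 1 1 : ℤ) - (γ 0 1 : ℤ) * (γ 1 0 : ℤ) = 1 := by
    have := γ.det_coe
    rw [Matrix.det_fin_two] at this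
    exact_mod_cast this
  rw [denom_eq]
  unfold dv
  push_cast
  field_simp
  linear_combination (-(2 * π * I * r)) * hdet

theorem Zf_add_left (r s : ℤ) : Zf N (r + N) s = Zf N r s := by
  ext τ
  have hN : (N : ℂ) ≠ 0 := by exact_mod_cast NeZero.ne N
  unfold Zf
  have e : dv N (r + N) s τ = dv N r s τ + τ := by
    unfold dv
    push_cast
    field_simp
    ring
  rw [e, cotS_add_tau]
  push_cast
  field_simp
  ring

theorem Zf_add_right (r s : ℤ) : Zf N r (s + N) = Zf N r s := by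
  ext τ
  have hN : (N : ℂ) ≠ 0 := by exact_mod_cast NeZero.ne N
  unfold Zf
  have e : dv N r (s + N) τ = dv N r s τ + 1 := by
    unfold dv
    push_cast
    field_simp
    ring
  rw [e, cotS_add_one]

theorem Zf_add_mul_left (r s k : ℤ) : Zf N (r + k * N) s = Zf N r s := by
  induction k using Int.induction_on with
  | zero => simp
  | succ i ih =>
    have e : r + ((i : ℤ) + 1) * N = (r + i * N) + N := by ring
    rw [e, Zf_add_left, ih]
  | pred i ih =>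
    have e : r + (-(i : ℤ)) * N = (r + (-(i : ℤ) - 1) * N) + N := by ring
    rw [e, Zf_add_left] at ih
    exact ih

theorem Zf_add_mul_right (r s k : ℤ) : Zf N r (s + k * N) = Zf N r s := by
  induction k using Int.induction_on with
  | zero => simp
  | succ i ih =>
    have e : s + ((i : ℤ) + 1) * N = (s + i * N) + N := by ring
    rw [e, Zf_add_right, ih]
  | pred i ih =>
    have e : s + (-(i : ℤ)) * N = (s + (-(i : ℤ) - 1) * N) + N := by ring
    rw [e, Zf_add_right] at ih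
    exact ih

theorem Zf_congr {r r' s s' : ℤ} (hr : (N : ℤ) ∣ r - r') (hs : (N : ℤ) ∣ s - s') :
    Zf N r s = Zf N r' s' := by
  obtain ⟨k, hk⟩ := hr
  obtain ⟨j, hj⟩ := hs
  have e1 : r = r' + k * N := by linarith
  have e2 : s = s' + j * N := by linarith
  rw [e1, e2, Zf_add_mul_left, Zf_add_mul_right]

end Fermat.Agent.S48.Eis1
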