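import Fermat.Agent.S48.Eis1.Defs

/-!
# S48 / Eis1 / WZ  (WP [EIS1-A]): the Weierstrass zeta function: convergence and homogeneity
-/

set_option autoImplicit false

namespace Fermat.Agent.S48.Eis1

open UpperHalfPlane hiding I
open Complex Matrix
open scoped Real MatrixGroups

/-- `m (γτ) + n = ((m,n)γ applied to τ) / (cτ+d)`.  (cf. Mathlib `EisensteinSeries.eisSummand_SL2_apply`,
`UpperHalfPlane.specialLinearGroup_apply`, `denom`, `num`.) -/
theorem lat_smul (γ : SL(2, ℤ)) (τ : ℍ) (w : Fin 2 → ℤ) :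
    lat (γ • τ) w = lat τ (w ᵥ* γ) / denom γ τ := by
  have hd : denom γ τ ≠ 0 := denom_ne_zero _ τ
  have h1 : ((γ • τ : ℍ) : ℂ) = num γ τ / denom γ τ := by
    rw [UpperHalfPlane.specialLinearGroup_apply]
    simp [num, denom]
  rw [lat, lat, h1, eq_div_iff hd]
  have h2 : denom γ τ = (γ 1 0 : ℂ) * τ + γ 1 1 := by simp [denom]
  have h3 : num γ τ = (γ 0 0 : ℂ) * τ + γ 0 1 := by simp [num]
  rw [add_mul, mul_assoc, div_mul_cancel₀ _ hd, h2, h3]
  simp only [Matrix.vecMul, dotProduct, Fin.sum_univ_two]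
  push_cast
  ring

/-- homogeneity of the summand (true also for `ω = 0` or `v + ω = 0` by the conventions `x/0 = 0`). -/
theorem wzTerm_div (v ω : ℂ) {δ : ℂ} (hδ : δ ≠ 0) :
    wzTerm (v / δ) (ω / δ) = δ * wzTerm v ω := by
  unfold wzTerm
  rw [← add_div, one_div_div, one_div_div, div_pow, div_div_eq_mul_div]
  have h : v / δ * δ ^ 2 = δ * v := by field_simp
  rw [h]
  ring

/-- for `ω ≠ 0`, `v + ω ≠ 0`: `wzTerm v ω = v² / (ω² (v + ω))`. -/
theorem wzTerm_eq {v ω : ℂ} (hω : ω ≠ 0) (hvω : v + ω ≠ 0) :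
    wzTerm v ω = v ^ 2 / (ω ^ 2 * (v + ω)) := by
  unfold wzTerm
  field_simp
  ring

theorem lat_ne_zero (τ : ℍ) {w : Fin 2 → ℤ} (hw : w ≠ 0) : lat τ w ≠ 0 := by
  intro h
  apply hw
  have him : (lat τ w).im = w 0 * τ.im := by
    simp [lat, Complex.add_im, Complex.mul_im]
  have h0 : w 0 = 0 := by
    rw [h] at him
    have h1 : (w 0 : ℝ) * τ.im = 0 := by simpa using him.symm
    have h2 := (mul_eq_zero.mp h1).resolve_right τ.im_pos.ne'
    exact_mod_cast h2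
  have h1 : w 1 = 0 := by
    rw [lat, h0] at h
    simpa using h
  ext i
  fin_cases i
  · exact h0
  · exact h1

theorem norm_eisSummand_three (τ : ℍ) (w : Fin 2 → ℤ) :
    ‖EisensteinSeries.eisSummand 3 w τ‖ = (‖lat τ w‖ ^ 3)⁻¹ := by
  rw [EisensteinSeries.eisSummand, lat, norm_zpow]
  rw [_root_.zpow_neg]
  norm_cast

/-- absolute convergence.  For `2 ‖v‖ ≤ ‖ω‖` (all but finitely many `w`):
`‖wzTerm v ω‖ ≤ 2 ‖v‖² / ‖ω‖³`; compare with `EisensteinSeries.summable_norm_eisSummand` (`k = 3`),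
`Summable.of_norm_bounded_eventually`; finiteness of `{w | ‖lat τ w‖ < R}` from
`EisensteinSeries.summand_bound` / `r_mul_max_le` or from the summability itself
(`Summable.tendsto_cofinite_zero`). -/
theorem summable_wzTerm (v : ℂ) (τ : ℍ) : Summable fun w : Fin 2 → ℤ => wzTerm v (lat τ w) := by
  have hS := EisensteinSeries.summable_norm_eisSummand (k := 3) le_rfl τ
  refine Summable.of_norm_bounded_eventually (hS.mul_left (2 * ‖v‖ ^ 2)) ?_
  set R : ℝ := 2 * ‖v‖ + 1 with hR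
  have hRpos : 0 < R := by positivity
  have hev : ∀ᶠ w : Fin 2 → ℤ in Filter.cofinite,
      ‖EisensteinSeries.eisSummand 3 w τ‖ < (R ^ 3)⁻¹ :=
    hS.tendsto_cofinite_zero.eventually (gt_mem_nhds (by positivity))
  have hne : ∀ᶠ w : Fin 2 → ℤ in Filter.cofinite, w ≠ 0 :=
    (Set.finite_singleton (0 : Fin 2 → ℤ)).eventually_cofinite_notMem.mono (fun w hw => by simpa using hw)
  filter_upwards [hev, hne] with w hw hw0
  have hω : lat τ w ≠ 0 := lat_ne_zero τ hw0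
  set ω := lat τ w with hωdef
  have hωpos : 0 < ‖ω‖ := norm_pos_iff.mpr hω
  rw [norm_eisSummand_three, ← hωdef] at hw ⊢
  have h1 : R < ‖ω‖ := by
    have h2 : R ^ 3 < ‖ω‖ ^ 3 := (inv_lt_inv₀ (by positivity) (by positivity)).mp hw
    exact lt_of_pow_lt_pow_left₀ 3 hωpos.le h2
  have h3 : ‖ω‖ / 2 ≤ ‖v + ω‖ := by
    have h4 : ‖ω‖ - ‖v‖ ≤ ‖v + ω‖ := by
      have := norm_sub_norm_le ω (-v)
      rw [norm_neg, sub_neg_eq_add, add_comm ω v] at this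
      exact this
    have := norm_nonneg v
    linarith
  have hvω : v + ω ≠ 0 := by
    intro h
    rw [h, norm_zero] at h3
    linarith
  rw [wzTerm_eq hω hvω, norm_div, norm_mul, norm_pow, norm_pow]
  rw [div_le_iff₀ (by positivity)]
  have h5 : 2 * ‖v‖ ^ 2 * (‖ω‖ ^ 3)⁻¹ * (‖ω‖ ^ 2 * (‖ω‖ / 2)) = ‖v‖ ^ 2 := by
    field_simp
  calc ‖v‖ ^ 2 = 2 * ‖v‖ ^ 2 * (‖ω‖ ^ 3)⁻¹ * (‖ω‖ ^ 2 * (‖ω‖ / 2)) := h5.symm
    _ ≤ 2 * ‖v‖ ^ 2 * (‖ω‖ ^ 3)⁻¹ * (‖ω‖ ^ 2 * ‖v + ω‖) := by gcongr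

/-- homogeneity of degree `-1`: reindex by `GAL.EisChar.vecEquiv γ`. -/
theorem wz_smul (γ : SL(2, ℤ)) (v : ℂ) (τ : ℍ) :
    wz (v / denom γ τ) (γ • τ) = denom γ τ * wz v τ := by
  have hd : denom γ τ ≠ 0 := denom_ne_zero _ τ
  unfold wz
  simp_rw [lat_smul, wzTerm_div _ _ hd]
  rw [tsum_mul_left]
  congr 1
  exact (GAL.EisChar.vecEquiv γ).tsum_eq (fun w => wzTerm v (lat τ w))

end Fermat.Agent.S48.Eis1
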